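import Fermat.Agent.Lib.Kummer.Defs

set_option autoImplicit false

namespace Fermat.Agent.Lib.Kummer

open Finset Int

lemma assembly_dvd_b_of_dvd_a {p : ℕ} (hp : p.Prime) (hp2 : p ≠ 2) (h2 : CaseII p)
    {a b c : ℤ} (ha : a ≠ 0)
    (Hgcd : Finset.gcd {a, b, c} id = 1) (hpa : (p : ℤ) ∣ a) (HF : a ^ p + b ^ p + c ^ p = 0) :
    (p : ℤ) ∣ b := by
  have hpZ : Prime (p : ℤ) := Nat.prime_iff_prime_int.mp hp
  have hodd : Odd p := hp.odd_of_ne_two hp2
  have hbc : IsCoprime (-b) (-c) := by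
    refine IsCoprime.neg_neg ?_
    rw [add_comm (a ^ p), add_assoc, add_comm (a ^ p), ← add_assoc] at HF
    refine isCoprime_of_gcd_eq_one_of_FLT ?_ HF
    convert Hgcd using 2
    rw [Finset.pair_comm, Finset.insert_comm]
  by_contra hpb
  by_cases hpc : (p : ℤ) ∣ c
  · apply hpb
    rw [add_assoc, add_comm (b ^ p), ← add_assoc] at HF
    exact dvd_c_of_prime_of_dvd_a_of_dvd_b_of_FLT hpZ hpa hpc HF
  · refine h2 (-b) (-c) a ha (by simpa using hpb) (by simpa using hpc) hpa hbc ?_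
    rw [add_eq_zero_iff_eq_neg, ← hodd.neg_pow] at HF
    rw [hodd.neg_pow, hodd.neg_pow]
    have : a ^ p = -(b ^ p) - c ^ p := by
      have h := HF
      rw [hodd.neg_pow] at h
      linear_combination h
    rw [this]; ring

lemma assembly_ne_zero_of_dvd_a {p : ℕ} (hp : p.Prime) (hp2 : p ≠ 2) (h2 : CaseII p)
    {a b c : ℤ} (ha : a ≠ 0)
    (hpa : (p : ℤ) ∣ a) (Hgcd : Finset.gcd {a, b, c} id = 1) :
    a ^ p + b ^ p + c ^ p ≠ 0 := by
  intro HF
  have hpZ : Prime (p : ℤ) := Nat.prime_iff_prime_int.mp hp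
  apply hpZ.not_dvd_one
  rw [← Hgcd]
  refine dvd_gcd (fun x hx ↦ ?_)
  simp only [mem_insert, mem_singleton] at hx
  have hpb : (p : ℤ) ∣ b := assembly_dvd_b_of_dvd_a hp hp2 h2 ha Hgcd hpa HF
  rcases hx with hx | hx | hx
  · exact hx ▸ hpa
  · exact hx ▸ hpb
  · simpa [hx] using dvd_c_of_prime_of_dvd_a_of_dvd_b_of_FLT hpZ hpa hpb HF

/-- Fermat's Last Theorem for an odd prime exponent `p` follows from the two classical cases. -/
theorem fermatLastTheoremFor_of_caseI_of_caseII {p : ℕ} (hp : p.Prime) (hp2 : p ≠ 2)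
    (h1 : CaseI p) (h2 : CaseII p) : FermatLastTheoremFor p := by
  have hpZ : Prime (p : ℤ) := Nat.prime_iff_prime_int.mp hp
  have hodd : Odd p := hp.odd_of_ne_two hp2
  rw [fermatLastTheoremFor_iff_int]
  refine fermatLastTheoremWith_of_fermatLastTheoremWith_coprime (fun a b c ha hb hc Hgcd hF ↦ ?_)
  by_cases hdvd : (p : ℤ) ∣ a * b * c
  swap
  · exact h1 a b c Hgcd hdvd hF
  rw [hpZ.dvd_mul, hpZ.dvd_mul] at hdvd
  rw [← sub_eq_zero, sub_eq_add_neg, ← hodd.neg_pow] at hF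
  rcases hdvd with (hpa | hpb) | hpc
  · refine assembly_ne_zero_of_dvd_a hp hp2 h2 ha hpa ?_ hF
    simp only [← Hgcd, gcd_insert, gcd_singleton, id_eq, ← abs_eq_normalize, abs_neg]
  · rw [add_comm (a ^ p)] at hF
    refine assembly_ne_zero_of_dvd_a hp hp2 h2 hb hpb ?_ hF
    simp only [← Hgcd, insert_comm, gcd_insert, gcd_singleton, id_eq, ← abs_eq_normalize, abs_neg]
  · rw [add_comm _ ((-c) ^ p), ← add_assoc] at hF
    refine assembly_ne_zero_of_dvd_a hp hp2 h2 (neg_ne_zero.2 hc) (by simpa using hpc) ?_ hF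
    rw [Finset.insert_comm (-c), Finset.pair_comm (-c) b]
    simp only [← Hgcd, gcd_insert, gcd_singleton, id_eq, ← abs_eq_normalize, abs_neg]

end Fermat.Agent.Lib.Kummer
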