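import Fermat.Agent.Lib.Kummer.Defs
import Fermat.Agent.Lib.Kummer.Assembly
import Fermat.Agent.Lib.KummerDescent

set_option autoImplicit false

namespace Fermat.Agent.Lib.Kummer

open NumberField

/-- Second case of Fermat for `p` from: `𝓞 K` is a PID and Kummer's lemma holds (Kummer descent). -/
theorem caseII_of_kummerLemma {p : ℕ} [Fact p.Prime] (hp2 : p ≠ 2) (K : Type*) [Field K]
    [NumberField K] [IsCyclotomicExtension {p} ℚ K] [IsPrincipalIdealRing (𝓞 K)]
    (hK : KummerLemma p K) : CaseII p :=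
  fun _ _ _ hc _ _ hpc hab => Fermat.Agent.Lib.KummerDescent.caseII hp2 hK hab hc hpc

/-- Fermat for the exponent `p` from the first case, a PID and Kummer's lemma. -/
theorem fermatLastTheoremFor_of_kummerLemma {p : ℕ} [hp : Fact p.Prime] (hp2 : p ≠ 2)
    (K : Type*) [Field K] [NumberField K] [IsCyclotomicExtension {p} ℚ K]
    [IsPrincipalIdealRing (𝓞 K)] (h1 : CaseI p) (hK : KummerLemma p K) :
    FermatLastTheoremFor p :=
  fermatLastTheoremFor_of_caseI_of_caseII hp.out hp2 h1 (caseII_of_kummerLemma hp2 K hK)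

end Fermat.Agent.Lib.Kummer
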