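import Fermat.Agent.Lib.Kummer.Defs
import Fermat.Agent.Lib.SophieGermain

set_option autoImplicit false

namespace Fermat.Agent.Lib.Kummer

/-- Glue: a pairwise-coprime "first case" statement in symmetric form gives `CaseI p`. -/
theorem caseI_of_symm {p : ℕ} (hodd : Odd p)
    (H : ∀ {x y z : ℤ}, IsCoprime x y → IsCoprime y z → IsCoprime z x →
      x ^ p + y ^ p + z ^ p = 0 → (p : ℤ) ∣ x * y * z) : CaseI p := by
  intro a b c Hgcd hnd hF
  have HF : a ^ p + b ^ p + (-c) ^ p = 0 := by
    rw [hodd.neg_pow]; linarith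
  have Hgcd' : Finset.gcd {a, b, -c} id = 1 := by
    rw [← Hgcd]
    simp only [Finset.gcd_insert, Finset.gcd_singleton, id_eq, ← Int.abs_eq_normalize, abs_neg]
  have hab : IsCoprime a b := isCoprime_of_gcd_eq_one_of_FLT Hgcd' HF
  have hbc : IsCoprime b (-c) := by
    refine isCoprime_of_gcd_eq_one_of_FLT (c := a) (n := p) ?_ (by linarith)
    rw [show ({b, -c, a} : Finset ℤ) = {a, b, -c} from by
      ext t; simp only [Finset.mem_insert, Finset.mem_singleton]; tauto]
    exact Hgcd'
  have hca : IsCoprime (-c) a := by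
    refine isCoprime_of_gcd_eq_one_of_FLT (c := b) (n := p) ?_ (by linarith)
    rw [show ({-c, a, b} : Finset ℤ) = {a, b, -c} from by
      ext t; simp only [Finset.mem_insert, Finset.mem_singleton]; tauto]
    exact Hgcd'
  have h := H hab hbc hca HF
  apply hnd
  have : a * b * c = -(a * b * -c) := by ring
  rw [this]
  exact (dvd_neg).mpr h

theorem caseI_five : CaseI 5 :=
  caseI_of_symm (by decide) fun hxy hyz hzx h =>
    Fermat.Agent.Lib.SophieGermain.caseOne_five hxy hyz hzx h

theorem caseI_seven : CaseI 7 :=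
  caseI_of_symm (by decide) fun hxy hyz hzx h =>
    Fermat.Agent.Lib.SophieGermain.caseOne_seven hxy hyz hzx h

theorem caseI_eleven : CaseI 11 :=
  caseI_of_symm (by decide) fun hxy hyz hzx h =>
    Fermat.Agent.Lib.SophieGermain.caseOne_eleven hxy hyz hzx h

theorem caseI_thirteen : CaseI 13 :=
  caseI_of_symm (by decide) fun hxy hyz hzx h =>
    Fermat.Agent.Lib.SophieGermain.caseOne_thirteen hxy hyz hzx h

end Fermat.Agent.Lib.Kummer
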