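import Mathlib

set_option autoImplicit false

namespace Fermat.Agent.Lib.Kummer

open NumberField

/-- First case of Fermat for the exponent `p`: no primitive solution with `p ∤ abc`. -/
def CaseI (p : ℕ) : Prop :=
  ∀ a b c : ℤ, ({a, b, c} : Finset ℤ).gcd id = 1 → ¬ (p : ℤ) ∣ a * b * c →
    a ^ p + b ^ p ≠ c ^ p

/-- Second case of Fermat for the exponent `p`, normalised so that `p ∣ c`. -/
def CaseII (p : ℕ) : Prop :=
  ∀ a b c : ℤ, c ≠ 0 → ¬ (p : ℤ) ∣ a → ¬ (p : ℤ) ∣ b → (p : ℤ) ∣ c → IsCoprime a b →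
    a ^ p + b ^ p ≠ c ^ p

/-- Kummer's lemma for `p` in the number field `K`: a unit congruent to a rational integer
modulo `p` is a `p`-th power of a unit. -/
def KummerLemma (p : ℕ) (K : Type*) [Field K] [NumberField K] : Prop :=
  ∀ u : (𝓞 K)ˣ, (∃ n : ℤ, (p : 𝓞 K) ∣ (u : 𝓞 K) - (n : 𝓞 K)) → ∃ v : (𝓞 K)ˣ, u = v ^ p

end Fermat.Agent.Lib.Kummer
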