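import Mathlib
import Fermat.Prelude.Def_FLTPrelim_FreyPackage

set_option autoImplicit false

namespace Fermat.Agent.Lib.Kummer

/-- A Frey package contradicts Fermat's Last Theorem for its exponent. -/
theorem freyPackage_false_of_flt (P : FreyPackage) (h : FermatLastTheoremFor P.p) : False :=
  (fermatLastTheoremFor_iff_int.mp h) P.a P.b P.c P.ha0 P.hb0 P.hc0 P.hFLT

end Fermat.Agent.Lib.Kummer
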